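import Fermat.Agent.S36.E.Symm.Red
import Fermat.Agent.S36.E.OfVal
import Fermat.Agent.S36.E.Contract
import Fermat.Agent.S36.Geo.Big
import Fermat.Agent.S36.StepA.Lvl2

/-!
# S36/E/Symm : the action of the decomposition group on the big components of the stable fibre of `X₀(M q²)`

`S : Geo.Setup`, `σ` in the decomposition group of `S.A`, `g = gal σ`.
* `smul_mem_embInf_iff`, `smul_mem_embZero_iff`, `smul_mem_embMid_iff` : `g` fixes the valuation rings at `∞`, `0` and maps the one of `ζ` to the one of `σ ζ`;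
* `midPerm S σ : Equiv.Perm S.MidIdx`;
* `stVal S Vhor : Comp SS S.MidIdx → ValOver S.A S.F2`, `stT S Vhor := ofVal (stVal S Vhor)` : the family of the reductions of the stable fibre;
* `compPerm τ : Equiv.Perm (Comp SS J')`;
* `exists_isSymm_st` : criterion for the field `inertia` of `EData`.
-/

set_option autoImplicit false

noncomputable section

namespace Fermat.Agent.S36.E

open AlgebraicCurve ModularCurve Fermat.Agent.S24 Fermat.Agent.Lib.RR Fermat.Agent.GAL
  Fermat.Agent.GAL.RED Fermat.Agent.GAL.Gauss Fermat.Agent.DR.Abs Fermat.Agent.DR.Conc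
  Fermat.Agent.S36.Abs Fermat.Agent.S36.Norm Fermat.Agent.S36.Val Fermat.Agent.S36.Geo
  Fermat.Agent.GAL.NormFormula

/-- the generic algebra structure (used for a shortcut instance). -/
@[reducible] def algFN (N : ℕ) : Algebra Kbar (FN N) := inferInstance

/-- shortcut instance (the generic search is slow, and it is repeated many times in the nested searches for
`∀ i, Field (V i).Res`, `∀ i, Algebra k (V i).Res`, ...). -/
instance (priority := 3000) instAlgebraFN (N : ℕ) : Algebra Kbar (FN N) := algFN N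

section gRing

variable (A : ValuationSubring Kbar)

theorem coeffMap_mem_gRing_iff (σ : A.decompositionSubgroup ℚ) (s : LaurentSeries Kbar) :
    coeffMap (((σ : Kbar ≃ₐ[ℚ] Kbar)) : Kbar →+* Kbar) s ∈ gRing A ↔ s ∈ gRing A := by
  constructor
  · intro h
    have h1 := coeffMap_mem_gRing A _ (Galois_mem A σ⁻¹) _ (Galois_residue A σ⁻¹) h
    rw [coeffMap_coeffMap] at h1
    have h2 : ((((σ⁻¹ : A.decompositionSubgroup ℚ) : Kbar ≃ₐ[ℚ] Kbar)) : Kbar →+* Kbar).comp
        (((σ : Kbar ≃ₐ[ℚ] Kbar)) : Kbar →+* Kbar) = RingHom.id Kbar := by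
      ext a
      show (σ : Kbar ≃ₐ[ℚ] Kbar)⁻¹ ((σ : Kbar ≃ₐ[ℚ] Kbar) a) = a
      exact (σ : Kbar ≃ₐ[ℚ] Kbar).symm_apply_apply a
    rwa [h2, coeffMap_id] at h1
  · exact coeffMap_mem_gRing A _ (Galois_mem A σ) _ (Galois_residue A σ)

end gRing

variable (S : Setup)

/-- the Galois action at level `M q²`. -/
abbrev Sgal (σ : Kbar ≃ₐ[ℚ] Kbar) : SemilinearAut Kbar S.F2 := gal (S.M * S.q * S.q) σ

theorem smul_mem_embInf_iff (σ : S.A.decompositionSubgroup ℚ) (y : S.F2) :
    Sgal S σ • y ∈ S.embInf.O ↔ y ∈ S.embInf.O :=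
  coeffMap_mem_gRing_iff S.A σ (y : LaurentSeries Kbar)

theorem smul_mem_embZero_iff (σ : S.A.decompositionSubgroup ℚ) (y : S.F2) :
    Sgal S σ • y ∈ S.embZero.O ↔ y ∈ S.embZero.O := by
  have h1 : S.W2 (Sgal S σ • y) = Sgal S σ • S.W2 y :=
    StepA.IsW2.galois S.hq S.hqM S.isW2 σ y
  show ((S.W2 (Sgal S σ • y) : S.F2) : LaurentSeries Kbar) ∈ gRing S.A ↔ _
  rw [h1]
  exact coeffMap_mem_gRing_iff S.A σ ((S.W2 y : S.F2) : LaurentSeries Kbar)

/-- the action of Galois on the primitive roots of unity. -/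
def rootMap (σ : Kbar ≃ₐ[ℚ] Kbar) (ζ : S.Roots) : S.Roots :=
  ⟨σ ζ.1, ζ.2.map_of_injective σ.injective⟩

theorem smul_mem_embMid_iff (σ : S.A.decompositionSubgroup ℚ) (ζ : S.Roots) (y : S.F2) :
    Sgal S σ • y ∈ (S.embMid (rootMap S σ ζ)).O ↔ y ∈ (S.embMid ζ).O := by
  have h1 : coeffMap (((σ : Kbar ≃ₐ[ℚ] Kbar)) : Kbar →+* Kbar) (S.iotaMid ζ y) =
      S.iotaMid (rootMap S σ ζ) (Sgal S σ • y) :=
    StepA.IsMid.galois S.hq S.hqM (S.isMid ζ) σ (S.isMid (rootMap S σ ζ)) y
  show S.iotaMid (rootMap S σ ζ) (Sgal S σ • y) ∈ gRing S.A ↔ _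
  rw [← h1]
  exact coeffMap_mem_gRing_iff S.A σ _

/-- the action on the middle valuation rings. -/
def midMap (σ : Kbar ≃ₐ[ℚ] Kbar) (w : S.MidIdx) : S.MidIdx := S.midOf (rootMap S σ w.root)

theorem smul_mem_midMap_iff (σ : S.A.decompositionSubgroup ℚ) (w : S.MidIdx) (y : S.F2) :
    Sgal S σ • y ∈ (midMap S σ w).1 ↔ y ∈ w.1 := by
  rw [← w.root_spec]
  exact smul_mem_embMid_iff S σ w.root y

theorem midMap_injective (σ : S.A.decompositionSubgroup ℚ) :
    Function.Injective (midMap S (σ : Kbar ≃ₐ[ℚ] Kbar)) := by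
  intro w w' h
  apply Subtype.ext
  ext y
  rw [← smul_mem_midMap_iff S σ w y, h, smul_mem_midMap_iff]

/-- the permutation of the middle components. -/
def midPerm (σ : S.A.decompositionSubgroup ℚ) : Equiv.Perm S.MidIdx :=
  Equiv.ofBijective _ (Finite.injective_iff_bijective.1 (midMap_injective S σ))

@[simp] theorem midPerm_apply (σ : S.A.decompositionSubgroup ℚ) (w : S.MidIdx) :
    midPerm S σ w = midMap S σ w := rfl

/-- the valuation ring of `(midPerm σ w).root` is the image of `w`. -/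
theorem smul_mem_embMid_root_iff (σ : S.A.decompositionSubgroup ℚ) (w : S.MidIdx) (y : S.F2) :
    Sgal S σ • y ∈ (S.embMid (midPerm S σ w).root).O ↔ y ∈ (S.embMid w.root).O := by
  rw [(midPerm S σ w).root_spec, w.root_spec]
  exact smul_mem_midMap_iff S σ w y

/-- the permutation of the components induced by a permutation of the middle components. -/
def compPerm {SS J' : Type*} (τ : Equiv.Perm J') : Equiv.Perm (Comp SS J') where
  toFun
    | .inf => .inf
    | .zero => .zero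
    | .mid w => .mid (τ w)
    | .hor e => .hor e
  invFun
    | .inf => .inf
    | .zero => .zero
    | .mid w => .mid (τ.symm w)
    | .hor e => .hor e
  left_inv i := by cases i <;> simp
  right_inv i := by cases i <;> simp

section compPerm

variable {SS J' : Type*} (τ : Equiv.Perm J')

@[simp] theorem compPerm_inf : compPerm (SS := SS) τ .inf = .inf := rfl
@[simp] theorem compPerm_zero : compPerm (SS := SS) τ .zero = .zero := rfl
@[simp] theorem compPerm_mid (w : J') : compPerm (SS := SS) τ (.mid w) = .mid (τ w) := rfl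
@[simp] theorem compPerm_hor (e : SS) : compPerm (J' := J') τ (.hor e) = .hor e := rfl

end compPerm

variable {SS : Type}

/-- **The valuation rings of the components of the stable fibre**: `C_∞`, `C_0`, `MID_w`, and given `H_e`. -/
def stVal (Vhor : SS → ValOver S.A S.F2) : Comp SS S.MidIdx → ValOver S.A S.F2 :=
  compVal S.embInf.toValOver S.embZero.toValOver (fun w => (S.embMid w.root).toValOver) Vhor

/-- the function fields of the components. -/
abbrev stFb (Vhor : SS → ValOver S.A S.F2) (i : Comp SS S.MidIdx) : Type := (stVal S Vhor i).Res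

/-- **The family of the reductions of the stable fibre.** -/
abbrev stT (Vhor : SS → ValOver S.A S.F2) : MultiRed Kbar S.F2 S.k (stFb S Vhor) :=
  ofVal (stVal S Vhor)

theorem smul_mem_stT_iff (Vhor : SS → ValOver S.A S.F2) (σ : S.A.decompositionSubgroup ℚ)
    (hhor : ∀ e y, Sgal S σ • y ∈ (Vhor e).O ↔ y ∈ (Vhor e).O) (i : Comp SS S.MidIdx) (y : S.F2) :
    Sgal S σ • y ∈ ((stT S Vhor).R (compPerm (midPerm S σ) i)).O ↔ y ∈ ((stT S Vhor).R i).O := by
  cases i with
  | inf => exact smul_mem_embInf_iff S σ y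
  | zero => exact smul_mem_embZero_iff S σ y
  | mid w => exact smul_mem_embMid_root_iff S σ w y
  | hor e => exact hhor e y

/-- inertia acts trivially on the residue field of the constants. -/
theorem inertia_const (Vhor : SS → ValOver S.A S.F2) (σ : S.A.decompositionSubgroup ℚ)
    (hσ : σ ∈ S.A.inertiaSubgroup ℚ) (a : Kbar) (ha : a ∈ (stT S Vhor).A) :
    SemilinearAut.baseAut (Sgal S σ) a ∈ (stT S Vhor).A ∧
      (stT S Vhor).redA (SemilinearAut.baseAut (Sgal S σ) a) = (stT S Vhor).redA a := by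
  have ha' : a ∈ S.A := ha
  have h1 : (((σ : Kbar ≃ₐ[ℚ] Kbar)) : Kbar →+* Kbar) a ∈ S.A := Galois_mem S.A σ a ha'
  refine ⟨h1, ?_⟩
  have h2 := Galois_residue S.A σ a ha'
  have h3 : barAut S.A σ = 1 := hσ
  rw [h3] at h2
  show (ofVal (stVal S Vhor)).redA ((((σ : Kbar ≃ₐ[ℚ] Kbar)) : Kbar →+* Kbar) a) = _
  rw [ofVal_redA_of_mem _ h1, ofVal_redA_of_mem _ ha', h2]
  rfl

variable {J : Type} [Fintype SS] [Fintype J]

/-- **Criterion for the field `inertia` of `EData`.**  `σ` in the inertia group which stabilises the valuation rings of the `H_e`; for every node it is enough to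
control ONE branch (e.g. the branch on `H_e`: then `compPerm _ (N.i₁ n) = N.i₁ (πE n)` is `.hor e = .hor e`). -/
theorem exists_isSymm_st (Vhor : SS → ValOver S.A S.F2) [∀ i, Lib.RR.IsFF S.k (stFb S Vhor i)] {x : S.F2}
    {N : NodeData S.k (stFb S Vhor) (Nd SS J)} {a₀ : ℕ} (h : IsPreNodal (stT S Vhor) x N a₀)
    (σ : S.A.decompositionSubgroup ℚ) (hσ : σ ∈ S.A.inertiaSubgroup ℚ)
    (hhor : ∀ e y, Sgal S σ • y ∈ (Vhor e).O ↔ y ∈ (Vhor e).O)
    (hx : ∃ a : ℕ, Sgal S σ • x ∈ riemannRochSpace (a • poleDiv (K := Kbar) x))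
    (πE : Equiv.Perm (Nd SS J))
    (hbr : ∀ n,
      (compPerm (midPerm S σ) (N.i₁ n) = N.i₁ (πE n) ∧ ∀ y ∈ ((stT S Vhor).R (N.i₁ n)).O,
        0 ≤ (N.p₁ n).ord (((stT S Vhor).R (N.i₁ n)).red y) →
          0 ≤ (N.p₁ (πE n)).ord (((stT S Vhor).R (N.i₁ (πE n))).red (Sgal S σ • y))) ∨
      (compPerm (midPerm S σ) (N.i₂ n) = N.i₂ (πE n) ∧ ∀ y ∈ ((stT S Vhor).R (N.i₂ n)).O,
        0 ≤ (N.p₂ n).ord (((stT S Vhor).R (N.i₂ n)).red y) →
          0 ≤ (N.p₂ (πE n)).ord (((stT S Vhor).R (N.i₂ (πE n))).red (Sgal S σ • y)))) :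
    ∃ G : (∀ i, stFb S Vhor i) → (∀ i, stFb S Vhor i),
      IsSymm (stT S Vhor) x N (Sgal S σ) G (RingHom.id S.k) πE :=
  exists_isSymm_of_red h (Sgal S σ) (compPerm (midPerm S σ)) (inertia_const S Vhor σ hσ)
    (smul_mem_stT_iff S Vhor σ hhor) hx πE hbr

end Fermat.Agent.S36.E
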