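import Fermat.Agent.S36.Norm.Tools.Symm
import Fermat.Agent.S36.Abs.LyingOver.Defs

/-!
# S36/E/Symm : the glued partner of a branch is unique; symmetries of a nodal reduction

`T, x, N` with `IsPreNodal T x N a₀`.

* `nodesGlued_of_isPreNodal`, `gluedAt_node` : the two branches of a node are glued;
* `ord_red_nonneg` : the reductions of the elements of `B` are regular outside the poles of the `x̄ᵢ`;
* `eq_or_node_of_gluedAt` : two glued points (not poles of the coordinate) are equal or are the two branches of a node;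
* `isSymm_of_branchMap_or` : to check that `g` is a symmetry (`Abs.IsSymm`) it is enough to know, for every node, the image
  of ONE of its two branches.
-/

set_option autoImplicit false

noncomputable section

namespace Fermat.Agent.S36.E

open AlgebraicCurve Fermat.Agent.Lib.RR Fermat.Agent.GAL Fermat.Agent.GAL.RED Fermat.Agent.DR.Abs
  Fermat.Agent.S36.Abs Fermat.Agent.S36.Norm

variable {K F k : Type*} [Field K] [Field F] [Algebra K F] [Field k] {ι : Type*}
  {Fb : ι → Type*} [∀ i, Field (Fb i)] [∀ i, Algebra k (Fb i)] {E : Type*}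
  [IsFF K F] [IsAlgClosed K] [∀ i, IsFF k (Fb i)] [IsAlgClosed k] [Fintype ι] [Fintype E]

/-- an element of `B` lies in `L(a (x)_∞)` for all large `a`. -/
theorem InB.red_mem {T : MultiRed K F k Fb} {x : F} {N : NodeData k Fb E} {a₀ : ℕ}
    (h : IsPreNodal T x N a₀) {y : F} (hy : InB T x y) :
    ∃ a : ℕ, T.Bounded x a 0 (T.red y) ∧ N.Glued 1 (T.red y) := by
  obtain ⟨hyO, a, ha⟩ := hy
  have h0 : 0 ≤ poleDiv (K := K) x := poleBound_poleDiv_nonneg x
  have ha' : y ∈ riemannRochSpace (bipole K x (a + a₀) 0) := by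
    rw [bipole_zero_right]
    exact Fermat.Agent.DR.Abs.L_mono (nsmul_le_nsmul_left h0 (Nat.le_add_right a a₀)) ha
  exact ⟨a + a₀, (h.mem_iff (a + a₀) 0 (by omega) (T.red y)).1 ⟨y, ha', hyO, rfl⟩⟩

/-- the reductions of the integral regular functions are glued. -/
theorem nodesGlued_of_isPreNodal {T : MultiRed K F k Fb} {x : F} {N : NodeData k Fb E} {a₀ : ℕ}
    (h : IsPreNodal T x N a₀) : NodesGlued T x N := fun y hyO hy => by
  obtain ⟨_, _, h2⟩ := InB.red_mem h (y := y) ⟨hyO, hy⟩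
  exact h2

/-- the two branches of a node are glued. -/
theorem gluedAt_node {T : MultiRed K F k Fb} {x : F} {N : NodeData k Fb E} {a₀ : ℕ}
    (h : IsPreNodal T x N a₀) (e : E) : GluedAt T x (N.p₁ e) (N.p₂ e) := fun y hy => by
  have := nodesGlued_of_isPreNodal h y hy.1 hy.2 e
  rwa [Pi.one_apply, one_mul] at this

/-- the reduction of an integral regular function is regular outside the poles of the reduction of the
coordinate. -/
theorem ord_red_nonneg {T : MultiRed K F k Fb} {x : F} {N : NodeData k Fb E} {a₀ : ℕ}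
    (h : IsPreNodal T x N a₀) {y : F} (hy : InB T x y) (i : ι) (P : Place k (Fb i))
    (hP : 0 ≤ P.ord ((T.R i).red x)) : 0 ≤ P.ord ((T.R i).red y) := by
  obtain ⟨a, h1, _⟩ := InB.red_mem h hy
  refine ord_nonneg_of_mem_L (h1 i) ?_
  rw [bipole_apply, max_eq_right (by omega)]
  simp

/-- **The glued partner of a branch is unique**: two glued points are equal or are the two branches of a node. -/
theorem eq_or_node_of_gluedAt {T : MultiRed K F k Fb} {x : F} {N : NodeData k Fb E} {a₀ : ℕ}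
    (h : IsPreNodal T x N a₀) (β γ : Σ i, Place k (Fb i))
    (hβ : 0 ≤ β.2.ord ((T.R β.1).red x)) (hγ : 0 ≤ γ.2.ord ((T.R γ.1).red x))
    (hg : GluedAt T x β.2 γ.2) :
    β = γ ∨ ∃ e, (β = N.branch (Sum.inl e) ∧ γ = N.branch (Sum.inr e)) ∨
      (β = N.branch (Sum.inr e) ∧ γ = N.branch (Sum.inl e)) := by
  classical
  by_contra hcon
  -- the points related to `β`
  let rel : (Σ i, Place k (Fb i)) → Prop := fun b =>
    β = b ∨ ∃ e, (β = N.branch (Sum.inl e) ∧ b = N.branch (Sum.inr e)) ∨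
      (β = N.branch (Sum.inr e) ∧ b = N.branch (Sum.inl e))
  have hrelβ : rel β := Or.inl rfl
  have hrelγ : ¬ rel γ := hcon
  have hnode : ∀ e, rel (N.branch (Sum.inl e)) ↔ rel (N.branch (Sum.inr e)) := by
    intro e
    constructor
    · rintro (h1 | ⟨e', ⟨_, h2⟩ | ⟨h1, h2⟩⟩)
      · exact Or.inr ⟨e, Or.inl ⟨h1, rfl⟩⟩
      · exact absurd (h.inj h2) Sum.inl_ne_inr
      · rw [Sum.inl_injective (h.inj h2)]
        exact Or.inl h1
    · rintro (h1 | ⟨e', ⟨h1, h2⟩ | ⟨_, h2⟩⟩)
      · exact Or.inr ⟨e, Or.inr ⟨h1, rfl⟩⟩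
      · rw [Sum.inr_injective (h.inj h2)]
        exact Or.inl h1
      · exact absurd (h.inj h2) Sum.inr_ne_inl
  have hfin : ∀ i, {P : Place k (Fb i) | (⟨i, P⟩ : Σ i, Place k (Fb i)) ∈ ({β, γ} : Set _)}.Finite :=
    fun i => (Set.toFinite ({β, γ} : Set (Σ i, Place k (Fb i)))).preimage
      (sigma_mk_injective.injOn)
  have hN : N.Adapted (T.red x) := ⟨h.inj, h.nonconst, h.unit₁, h.unit₂⟩
  obtain ⟨a₂, h₂⟩ := exists_bounded_values' (T.red x) h.nonconst
    (fun i => (hfin i).toFinset ∪ Glued_brSet N i) (by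
      intro i P hP
      rcases Finset.mem_union.1 hP with hP | hP
      · rw [Set.Finite.mem_toFinset] at hP
        rcases hP with hP | hP
        · have := hβ
          rw [← hP] at this
          exact this
        · have hP' : (⟨i, P⟩ : Σ i, Place k (Fb i)) = γ := hP
          have := hγ
          rw [← hP'] at this
          exact this
      · exact (Glued_ord_of_mem_brSet hN i P hP).ge)
  obtain ⟨z, hz, hv⟩ := h₂ (a₂ + a₀) (Nat.le_add_right _ _)
    (fun i P => if rel ⟨i, P⟩ then 1 else 0)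
  have hglued : N.Glued 1 z := by
    intro e
    rw [hv _ _ (Finset.mem_union_right _ (Glued_p₁_mem_brSet N e)),
      hv _ _ (Finset.mem_union_right _ (Glued_p₂_mem_brSet N e)), Pi.one_apply, one_mul]
    have : rel ⟨N.i₁ e, N.p₁ e⟩ ↔ rel ⟨N.i₂ e, N.p₂ e⟩ := hnode e
    by_cases hr : rel ⟨N.i₁ e, N.p₁ e⟩
    · rw [if_pos hr, if_pos (this.1 hr)]
    · rw [if_neg hr, if_neg (fun h' => hr (this.2 h'))]
  obtain ⟨y, hyL, hyO, hyz⟩ := (h.mem_iff (a₂ + a₀) 0 (by omega) z).2 ⟨hz, hglued⟩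
  rw [bipole_zero_right] at hyL
  have h3 := hg y ⟨hyO, _, hyL⟩
  have h4 : ∀ i, (T.R i).red y = z i := fun i => congrFun hyz i
  rw [h4, h4, hv β.1 β.2 (Finset.mem_union_left _ (by
      rw [Set.Finite.mem_toFinset]; exact Or.inl rfl)),
    hv γ.1 γ.2 (Finset.mem_union_left _ (by
      rw [Set.Finite.mem_toFinset]; exact Or.inr rfl)), if_pos hrelβ, if_neg hrelγ] at h3
  exact one_ne_zero h3

/-! ### Symmetries -/

omit [IsAlgClosed k] [Fintype ι] [Fintype E] [∀ i, IsFF k (Fb i)] in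
/-- if `g` preserves the ring of the functions which are regular outside the poles of `x`, so does `g⁻¹`
(`g` permutes the finite set of the poles of `x`). -/
theorem exists_mem_L_inv_smul (g : SemilinearAut K F) {x : F}
    (hx : ∃ a : ℕ, g • x ∈ riemannRochSpace (a • poleDiv (K := K) x)) :
    ∃ a : ℕ, g⁻¹ • x ∈ riemannRochSpace (a • poleDiv (K := K) x) := by
  rw [RegNorm_exists_mem_L_poleDiv_iff] at hx ⊢
  let Z : Set (Place K F) := {P | P.ord x < 0}
  have hZ : Z.Finite := by
    refine (poleDiv (K := K) x).support.finite_toSet.subset fun P hP => ?_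
    have hP' : P.ord x < 0 := hP
    rw [Finset.mem_coe, Finsupp.mem_support_iff, poleDiv_apply]
    omega
  have hmap : ∀ P : Z, g • (P : Place K F) ∈ Z := by
    intro P
    have hP : (P : Place K F).ord x < 0 := P.2
    show (g • (P : Place K F)).ord x < 0
    by_contra hcon
    have h1 := hx _ (not_lt.1 hcon)
    rw [SemilinearAut.ord_smul] at h1
    omega
  let f : Z → Z := fun P => ⟨g • (P : Place K F), hmap P⟩
  have hinj : Function.Injective f := by
    intro P Q hPQ
    have h1 : g • (P : Place K F) = g • (Q : Place K F) := congrArg Subtype.val hPQ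
    exact Subtype.ext (smul_left_cancel g h1)
  have : Finite Z := hZ
  have hsurj : Function.Surjective f := Finite.injective_iff_surjective.1 hinj
  intro P hP
  have h1 := SemilinearAut.ord_smul g⁻¹ (g • P) x
  rw [inv_smul_smul] at h1
  rw [h1]
  by_contra hcon
  obtain ⟨Q, hQ⟩ := hsurj ⟨g • P, not_le.1 hcon⟩
  have h2 : g • (Q : Place K F) = g • P := congrArg Subtype.val hQ
  have h3 : (Q : Place K F) = P := smul_left_cancel g h2
  have h4 : (Q : Place K F).ord x < 0 := Q.2
  rw [h3] at h4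
  omega

omit [Fintype ι] [Fintype E] [IsFF K F] [IsAlgClosed K] in
theorem placeMap_injective {L1 L : Type*} [Field L1] [Field L] [Algebra k L1] [Algebra k L]
    [IsFF k L1] [IsFF k L] (σ : L1 ≃ₐ[k] L) : Function.Injective (placeMap σ) := by
  intro P Q hPQ
  refine Ev_place_eq_of_le Q P fun f hf => ?_
  rw [← placeMap_ord σ P f, hPQ, placeMap_ord]
  exact hf

/-- the image of a branch. -/
def gBr (π : Equiv.Perm ι) (gb : ∀ i, Fb i ≃ₐ[k] Fb (π i)) (β : Σ i, Place k (Fb i)) :
    Σ i, Place k (Fb i) :=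
  ⟨π β.1, placeMap (gb β.1) β.2⟩

omit [Fintype ι] [Fintype E] [IsFF K F] [IsAlgClosed K] in
theorem gBr_injective (π : Equiv.Perm ι) (gb : ∀ i, Fb i ≃ₐ[k] Fb (π i)) :
    Function.Injective (gBr π gb) := by
  rintro ⟨i, P⟩ ⟨j, Q⟩ hPQ
  have h1 : π i = π j := congrArg Sigma.fst hPQ
  obtain rfl : i = j := π.injective h1
  have h2 : placeMap (gb i) P = placeMap (gb i) Q := eq_of_heq (Sigma.mk.inj hPQ).2
  rw [placeMap_injective (gb i) h2]

omit [Fintype ι] [Fintype E] [IsFF K F] [IsAlgClosed K] in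
theorem branchMap_iff (π : Equiv.Perm ι) (gb : ∀ i, Fb i ≃ₐ[k] Fb (π i))
    (β β' : Σ i, Place k (Fb i)) : BranchMap π gb β β' ↔ β' = gBr π gb β := by
  constructor
  · rintro ⟨P', rfl, hP'⟩
    have : P' = placeMap (gb β.1) β.2 := by
      refine Ev_place_eq_of_le _ _ fun f hf => ?_
      obtain ⟨u, rfl⟩ := (gb β.1).surjective f
      rw [placeMap_ord] at hf
      exact hP' u hf
    rw [this]
    rfl
  · rintro rfl
    exact branchMap_placeMap π gb β.1 β.2

section

variable {T : MultiRed K F k Fb} {x : F} {g : SemilinearAut K F} {π : Equiv.Perm ι}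
  {gb : ∀ i, Fb i ≃ₐ[k] Fb (π i)}

omit [IsAlgClosed k] [Fintype ι] [Fintype E] [∀ i, IsFF k (Fb i)] in
theorem InB.inv_smul (hmem : ∀ i y, g • y ∈ (T.R (π i)).O ↔ y ∈ (T.R i).O)
    (hx : ∃ a : ℕ, g • x ∈ riemannRochSpace (a • poleDiv (K := K) x)) {y : F} (hy : InB T x y) :
    InB T x (g⁻¹ • y) := by
  obtain ⟨hyO, a, ha⟩ := hy
  refine ⟨fun i => ?_, exists_mem_L_smul g⁻¹ (exists_mem_L_inv_smul g hx) y a ha⟩
  rw [← hmem i, smul_inv_smul]
  exact hyO _

omit [Fintype ι] [Fintype E] in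
theorem red_eq_gb (hmem : ∀ i y, g • y ∈ (T.R (π i)).O ↔ y ∈ (T.R i).O)
    (hred : ∀ i, ∀ y ∈ (T.R i).O, (T.R (π i)).red (g • y) = gb i ((T.R i).red y)) (i : ι) {y : F}
    (hy : y ∈ (T.R (π i)).O) : (T.R (π i)).red y = gb i ((T.R i).red (g⁻¹ • y)) := by
  rw [← hred i (g⁻¹ • y) (by rw [← hmem i, smul_inv_smul]; exact hy), smul_inv_smul]

omit [Fintype ι] [Fintype E] in
/-- the images of two glued points are glued. -/
theorem GluedAt.map (hmem : ∀ i y, g • y ∈ (T.R (π i)).O ↔ y ∈ (T.R i).O)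
    (hred : ∀ i, ∀ y ∈ (T.R i).O, (T.R (π i)).red (g • y) = gb i ((T.R i).red y))
    (hx : ∃ a : ℕ, g • x ∈ riemannRochSpace (a • poleDiv (K := K) x)) {i j : ι}
    {P : Place k (Fb i)} {Q : Place k (Fb j)} (hPQ : GluedAt T x P Q) :
    GluedAt T x (placeMap (gb i) P) (placeMap (gb j) Q) := by
  intro y hy
  rw [red_eq_gb hmem hred i (hy.1 _), red_eq_gb hmem hred j (hy.1 _), ev_placeMap, ev_placeMap]
  exact hPQ _ (InB.inv_smul hmem hx hy)

/-- **Symmetries of a nodal reduction.**  `g` permutes the components by `π` and induces `gb` on their function fields.  To check that it is a symmetry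
acting by `πE` on the nodes it is enough to know for every node `e` that ONE of the two branches of `e` is mapped to the corresponding branch
of `πE e`. -/
theorem isSymm_of_branchMap_or {N : NodeData k Fb E} {a₀ : ℕ} (h : IsPreNodal T x N a₀)
    (g : SemilinearAut K F) (π : Equiv.Perm ι) (gb : ∀ i, Fb i ≃ₐ[k] Fb (π i))
    (hmem : ∀ i y, g • y ∈ (T.R (π i)).O ↔ y ∈ (T.R i).O)
    (hred : ∀ i, ∀ y ∈ (T.R i).O, (T.R (π i)).red (g • y) = gb i ((T.R i).red y))
    (hx : ∃ a : ℕ, g • x ∈ riemannRochSpace (a • poleDiv (K := K) x)) (πE : Equiv.Perm E)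
    (hbr : ∀ e, BranchMap π gb ⟨N.i₁ e, N.p₁ e⟩ ⟨N.i₁ (πE e), N.p₁ (πE e)⟩ ∨
      BranchMap π gb ⟨N.i₂ e, N.p₂ e⟩ ⟨N.i₂ (πE e), N.p₂ (πE e)⟩) :
    IsSymm T x N g (permMap π gb) (RingHom.id k) πE := by
  have hxO : x ∈ T.O := fun i => (T.R i).mem_of_red_ne_zero fun h0 =>
    h.nonconst i ⟨0, by rw [h0, map_zero]⟩
  have hreg : ∀ (i : ι) (P : Place k (Fb i)), 0 ≤ P.ord ((T.R i).red x) →
      0 ≤ (placeMap (gb i) P).ord ((T.R (π i)).red x) := by
    intro i P hP
    rw [red_eq_gb hmem hred i (hxO _), placeMap_ord]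
    exact ord_red_nonneg h (InB.inv_smul hmem hx (InB.coord hxO)) i P hP
  have key : ∀ e, N.branch (Sum.inl (πE e)) = gBr π gb (N.branch (Sum.inl e)) ∧
      N.branch (Sum.inr (πE e)) = gBr π gb (N.branch (Sum.inr e)) := by
    intro e
    have h1 := eq_or_node_of_gluedAt h (gBr π gb (N.branch (Sum.inl e)))
      (gBr π gb (N.branch (Sum.inr e))) (hreg _ _ (h.unit₁ e).ge) (hreg _ _ (h.unit₂ e).ge)
      (GluedAt.map hmem hred hx (gluedAt_node h e))
    rcases h1 with h1 | ⟨e', ⟨h1, h2⟩ | ⟨h1, h2⟩⟩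
    · exact absurd (h.inj (gBr_injective π gb h1)) Sum.inl_ne_inr
    · rcases hbr e with h3 | h3
      · have h4 : N.branch (Sum.inl (πE e)) = gBr π gb (N.branch (Sum.inl e)) :=
          (branchMap_iff π gb _ _).1 h3
        have h5 : πE e = e' := Sum.inl_injective (h.inj (h4.trans h1))
        rw [h5]
        exact ⟨h1.symm, h2.symm⟩
      · have h4 : N.branch (Sum.inr (πE e)) = gBr π gb (N.branch (Sum.inr e)) :=
          (branchMap_iff π gb _ _).1 h3
        have h5 : πE e = e' := Sum.inr_injective (h.inj (h4.trans h2))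
        rw [h5]
        exact ⟨h1.symm, h2.symm⟩
    · rcases hbr e with h3 | h3
      · have h4 : N.branch (Sum.inl (πE e)) = gBr π gb (N.branch (Sum.inl e)) :=
          (branchMap_iff π gb _ _).1 h3
        exact absurd (h.inj (h4.trans h1)) Sum.inl_ne_inr
      · have h4 : N.branch (Sum.inr (πE e)) = gBr π gb (N.branch (Sum.inr e)) :=
          (branchMap_iff π gb _ _).1 h3
        exact absurd (h.inj (h4.trans h2)) Sum.inr_ne_inl
  exact isSymm_of_branchMap g π gb (fun i y hy => (hmem i y).2 hy) hred hx πE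
    (fun e => (branchMap_iff π gb _ _).2 (key e).1) (fun e => (branchMap_iff π gb _ _).2 (key e).2)

end

end Fermat.Agent.S36.E
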