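import Fermat.Agent.S36.E.Symm.Partner

/-!
# S36/E/Symm : a criterion for `Abs.IsSymm` without any dependent transport

`g` a semilinear automorphism of `F` acting trivially on the residue field `k` of the constants, permuting the valuation rings of the components by `π`.
The isomorphisms `Fb i ≃ₐ[k] Fb (π i)` are constructed here (`symmGb`), and the condition on the branches is expressed by
"`red_i y` regular at the branch `⟹` `red_{i'} (g • y)` regular at the image branch".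
-/

set_option autoImplicit false

noncomputable section

namespace Fermat.Agent.S36.E

open AlgebraicCurve Fermat.Agent.Lib.RR Fermat.Agent.GAL Fermat.Agent.GAL.RED Fermat.Agent.DR.Abs
  Fermat.Agent.S36.Abs Fermat.Agent.S36.Norm

variable {K F k : Type*} [Field K] [Field F] [Algebra K F] [Field k] {ι : Type*}
  {Fb : ι → Type*} [∀ i, Field (Fb i)] [∀ i, Algebra k (Fb i)] {E : Type*}

section gb

variable {T : MultiRed K F k Fb} {g : SemilinearAut K F} {π : Equiv.Perm ι}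

theorem symm_redHom
    (hk : ∀ a ∈ T.A, SemilinearAut.baseAut g a ∈ T.A ∧
      T.redA (SemilinearAut.baseAut g a) = T.redA a)
    (hmem : ∀ i y, g • y ∈ (T.R (π i)).O ↔ y ∈ (T.R i).O) (i : ι) :
    RedHom (T.R i) (T.R (π i)) ((SemilinearAut.toRingAut g : F ≃+* F) : F →+* F) :=
  redHom_semilinear g (hmem i)
    (fun a ha => by
      rw [T.A_eq] at ha ⊢
      exact (hk a ha).1)
    (fun a ha => by
      rw [T.A_eq] at ha
      rw [T.redA_eq, T.redA_eq]
      exact (hk a ha).2)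

/-- the isomorphisms induced by `g` on the function fields of the components. -/
def symmGb
    (hk : ∀ a ∈ T.A, SemilinearAut.baseAut g a ∈ T.A ∧
      T.redA (SemilinearAut.baseAut g a) = T.redA a)
    (hmem : ∀ i y, g • y ∈ (T.R (π i)).O ↔ y ∈ (T.R i).O) (i : ι) : Fb i ≃ₐ[k] Fb (π i) :=
  (symm_redHom hk hmem i).resEquiv (SemilinearAut.toRingAut g).surjective

theorem symmGb_red
    (hk : ∀ a ∈ T.A, SemilinearAut.baseAut g a ∈ T.A ∧
      T.redA (SemilinearAut.baseAut g a) = T.redA a)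
    (hmem : ∀ i y, g • y ∈ (T.R (π i)).O ↔ y ∈ (T.R i).O) (i : ι) (y : F) :
    symmGb hk hmem i ((T.R i).red y) = (T.R (π i)).red (g • y) :=
  (symm_redHom hk hmem i).resEquiv_red _ y

theorem branchMap_of_red
    (hk : ∀ a ∈ T.A, SemilinearAut.baseAut g a ∈ T.A ∧
      T.redA (SemilinearAut.baseAut g a) = T.redA a)
    (hmem : ∀ i y, g • y ∈ (T.R (π i)).O ↔ y ∈ (T.R i).O) {i i' : ι} (hi : π i = i')
    (P : Place k (Fb i)) (P' : Place k (Fb i'))
    (hP : ∀ y ∈ (T.R i).O, 0 ≤ P.ord ((T.R i).red y) → 0 ≤ P'.ord ((T.R i').red (g • y))) :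
    BranchMap π (symmGb hk hmem) ⟨i, P⟩ ⟨i', P'⟩ := by
  subst hi
  refine ⟨P', rfl, fun u hu => ?_⟩
  obtain ⟨y, rfl⟩ := (T.R i).res_surjective u
  have h1 : (T.R i).res y = (T.R i).red (y : F) := ((T.R i).red_of_mem y.2).symm
  show 0 ≤ P'.ord (symmGb hk hmem i ((T.R i).res y))
  rw [h1, symmGb_red]
  refine hP y y.2 ?_
  rw [← h1]
  exact hu

end gb

variable [IsFF K F] [IsAlgClosed K] [∀ i, IsFF k (Fb i)] [IsAlgClosed k] [Fintype ι] [Fintype E]

/-- **Criterion for `IsSymm`.**  For every node it is enough to control ONE of the two branches. -/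
theorem exists_isSymm_of_red {T : MultiRed K F k Fb} {x : F} {N : NodeData k Fb E} {a₀ : ℕ}
    (h : IsPreNodal T x N a₀) (g : SemilinearAut K F) (π : Equiv.Perm ι)
    (hk : ∀ a ∈ T.A, SemilinearAut.baseAut g a ∈ T.A ∧
      T.redA (SemilinearAut.baseAut g a) = T.redA a)
    (hmem : ∀ i y, g • y ∈ (T.R (π i)).O ↔ y ∈ (T.R i).O)
    (hx : ∃ a : ℕ, g • x ∈ riemannRochSpace (a • poleDiv (K := K) x)) (πE : Equiv.Perm E)
    (hbr : ∀ e,
      (π (N.i₁ e) = N.i₁ (πE e) ∧ ∀ y ∈ (T.R (N.i₁ e)).O, 0 ≤ (N.p₁ e).ord ((T.R (N.i₁ e)).red y) →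
        0 ≤ (N.p₁ (πE e)).ord ((T.R (N.i₁ (πE e))).red (g • y))) ∨
      (π (N.i₂ e) = N.i₂ (πE e) ∧ ∀ y ∈ (T.R (N.i₂ e)).O, 0 ≤ (N.p₂ e).ord ((T.R (N.i₂ e)).red y) →
        0 ≤ (N.p₂ (πE e)).ord ((T.R (N.i₂ (πE e))).red (g • y)))) :
    ∃ G : (∀ i, Fb i) → (∀ i, Fb i), IsSymm T x N g G (RingHom.id k) πE :=
  ⟨permMap π (symmGb hk hmem), isSymm_of_branchMap_or h g π (symmGb hk hmem) hmem
    (fun i y _ => (symmGb_red hk hmem i y).symm) hx πE (fun e => by
      rcases hbr e with ⟨h1, h2⟩ | ⟨h1, h2⟩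
      · exact Or.inl (branchMap_of_red hk hmem h1 _ _ h2)
      · exact Or.inr (branchMap_of_red hk hmem h1 _ _ h2))⟩

end Fermat.Agent.S36.E
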